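/-
helper48 (P-ES / S31, row 408 S31-LAT): saturation of the Hecke ring of a lattice (pure algebra,
Mathlib only).  Namespace `Fermat.Agent.H48.Lat`.
-/
import Mathlib

set_option autoImplicit false
set_option maxSynthPendingDepth 3
set_option linter.style.haveILetI false
set_option linter.unusedSectionVars false

namespace Fermat.Agent.H48.Lat

/-- A finitely generated submodule all of whose elements have a positive multiple in `A` is
multiplied into `A` by one positive integer. -/
theorem exists_pos_smul_mem {E : Type*} [AddCommGroup E] (A : Submodule ℤ E)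
    (S : Finset E) (hS : ∀ e ∈ S, ∃ k : ℕ, 0 < k ∧ k • e ∈ A) :
    ∃ D : ℕ, 0 < D ∧ ∀ e ∈ Submodule.span ℤ (S : Set E), D • e ∈ A := by
  classical
  induction S using Finset.induction_on with
  | empty =>
    refine ⟨1, one_pos, fun e he => ?_⟩
    simp only [Finset.coe_empty, Submodule.span_empty, Submodule.mem_bot] at he
    subst he
    simp
  | insert a S ha ih =>
    obtain ⟨D, hD, hDS⟩ := ih (fun e he => hS e (Finset.mem_insert_of_mem he))
    obtain ⟨k, hk, hka⟩ := hS a (Finset.mem_insert_self a S)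
    refine ⟨k * D, Nat.mul_pos hk hD, fun e he => ?_⟩
    rw [Finset.coe_insert, Submodule.mem_span_insert] at he
    obtain ⟨z, y, hy, rfl⟩ := he
    rw [smul_add]
    refine A.add_mem ?_ ?_
    · have : (k * D) • (z • a) = (D * z : ℤ) • (k • a) := by
        simp only [← Nat.cast_smul_eq_nsmul ℤ, smul_smul]
        congr 1
        push_cast
        ring
      rw [this]
      exact A.smul_mem _ hka
    · have : (k * D) • y = (k : ℤ) • (D • y) := by
        simp only [← Nat.cast_smul_eq_nsmul ℤ, smul_smul]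
        push_cast
        rfl
      rw [this]
      exact A.smul_mem _ (hDS y hy)

/-- **Lattice bound** (saturation of the Hecke ring of a lattice). -/
theorem latticeBound_core (R : Type) [CommRing R] (H : Type) [AddCommGroup H]
    [Module.Finite ℤ H] [Module.Free ℤ H] (𝕋 : Type) [CommRing 𝕋] [IsAddTorsionFree 𝕋]
    (evH : R →+* Module.End ℤ H) (ev : R →+* 𝕋)
    (hker : ∀ Q : R, evH Q = 0 → ev Q = 0) (p : ℕ) (hp : p.Prime) (c : ℕ) :
    ∃ n : ℕ, ∀ P : R, (∀ h : H, ∃ h' : H, evH P h = (p ^ n) • h') →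
      ∃ t : 𝕋, ev P = (p : 𝕋) ^ c * t := by
  classical
  let A : Submodule ℤ (Module.End ℤ H) := LinearMap.range (evH.toAddMonoidHom.toIntLinearMap)
  have hA : ∀ e, e ∈ A ↔ ∃ Q, evH Q = e := fun e => Iff.rfl
  let Sat : Submodule ℤ (Module.End ℤ H) :=
    { carrier := {e | ∃ k : ℕ, 0 < k ∧ k • e ∈ A}
      zero_mem' := ⟨1, one_pos, by simp⟩
      add_mem' := by
        rintro e e' ⟨k, hk, hke⟩ ⟨k', hk', hke'⟩
        refine ⟨k * k', Nat.mul_pos hk hk', ?_⟩
        rw [smul_add]
        refine A.add_mem ?_ ?_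
        · have : (k * k') • e = (k' : ℤ) • (k • e) := by
            simp only [← Nat.cast_smul_eq_nsmul ℤ, smul_smul]
            congr 1
            push_cast
            ring
          rw [this]
          exact A.smul_mem _ hke
        · have : (k * k') • e' = (k : ℤ) • (k' • e') := by
            simp only [← Nat.cast_smul_eq_nsmul ℤ, smul_smul]
            push_cast
            rfl
          rw [this]
          exact A.smul_mem _ hke'
      smul_mem' := by
        rintro z e ⟨k, hk, hke⟩
        refine ⟨k, hk, ?_⟩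
        have : k • (z • e) = z • (k • e) := by
          simp only [← Nat.cast_smul_eq_nsmul ℤ, smul_smul]
          congr 1
          ring
        rw [this]
        exact A.smul_mem _ hke }
  have hSat : ∀ e, e ∈ Sat ↔ ∃ k : ℕ, 0 < k ∧ k • e ∈ A := fun e => Iff.rfl
  haveI : IsNoetherian ℤ (Module.End ℤ H) := inferInstance
  obtain ⟨S, hS⟩ := (IsNoetherian.noetherian Sat : Sat.FG)
  have hSsat : ∀ e ∈ S, ∃ k : ℕ, 0 < k ∧ k • e ∈ A := fun e he =>
    (hSat e).mp (hS ▸ Submodule.subset_span he)
  obtain ⟨D, hD, hDS⟩ := exists_pos_smul_mem A S hSsat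
  rw [hS] at hDS
  obtain ⟨a, u, hu, hDu⟩ := Nat.exists_eq_pow_mul_and_not_dvd hD.ne' p hp.ne_one
  refine ⟨a + c, fun P hP => ?_⟩
  let b := Module.Free.chooseBasis ℤ H
  let e : Module.End ℤ H := b.constr ℤ (fun i => Classical.choose (hP (b i)))
  have he : (p ^ (a + c)) • e = evH P := by
    apply b.ext
    intro i
    rw [LinearMap.smul_apply, Module.Basis.constr_basis]
    exact (Classical.choose_spec (hP (b i))).symm
  have heSat : e ∈ Sat := (hSat e).mpr ⟨p ^ (a + c), pow_pos hp.pos _, by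
    rw [he]; exact (hA _).mpr ⟨P, rfl⟩⟩
  obtain ⟨Q, hQ⟩ := (hA _).mp (hDS e heSat)
  have h0 : evH (D • P - (p ^ (a + c)) • Q) = 0 := by
    rw [map_sub, map_nsmul, map_nsmul, ← he, hQ, smul_comm, sub_self]
  have h1 := hker _ h0
  rw [map_sub, map_nsmul, map_nsmul, sub_eq_zero] at h1
  have h2 : u • ev P = p ^ c • ev Q := by
    have h3 : (p ^ a) • (u • ev P) = (p ^ a) • (p ^ c • ev Q) := by
      rw [smul_smul, smul_smul, ← hDu, ← pow_add, h1]
    exact nsmul_right_injective (pow_pos hp.pos a).ne' h3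
  have hcop : IsCoprime (u : ℤ) ((p : ℤ) ^ c) := by
    apply IsCoprime.pow_right
    rw [Nat.isCoprime_iff_coprime]
    exact ((Nat.Prime.coprime_iff_not_dvd hp).mpr hu).symm
  obtain ⟨v, w, hvw⟩ := hcop
  refine ⟨v • ev Q + w • ev P, ?_⟩
  have h2' : (u : 𝕋) * ev P = (p : 𝕋) ^ c * ev Q := by
    have := h2
    rw [nsmul_eq_mul, nsmul_eq_mul] at this
    push_cast at this
    exact this
  have h4 : ((v * u + w * (p : ℤ) ^ c : ℤ) : 𝕋) = 1 := by
    rw [hvw]; simp
  calc ev P = ((v * u + w * (p : ℤ) ^ c : ℤ) : 𝕋) * ev P := by rw [h4, one_mul]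
    _ = (v : 𝕋) * ((u : 𝕋) * ev P) + (w : 𝕋) * (p : 𝕋) ^ c * ev P := by
        push_cast; ring
    _ = (p : 𝕋) ^ c * (v • ev Q + w • ev P) := by
        rw [h2', zsmul_eq_mul, zsmul_eq_mul]; ring

end Fermat.Agent.H48.Lat
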