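/-
helper48 (P-ES / S31, row 408 S31-LAT):
`Fermat.Agent.H48.Lat.latticeBound : Fermat.Agent.H14.LatticeBoundStatement`.
-/
import Fermat.Agent.H14.S31JInterfaces
import Fermat.Agent.H48.S31.LatticeCore

set_option autoImplicit false

namespace Fermat.Agent.H48.Lat

/-- **S31-LAT.**  The lattice bound of helper14's S31 J-side interface. -/
theorem latticeBound : Fermat.Agent.H14.LatticeBoundStatement := by
  intro R _ H _ _ _ 𝕋 _ _ evH ev hker p hp c
  exact latticeBound_core R H 𝕋 evH ev hker p hp c

end Fermat.Agent.H48.Lat
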